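import Mathlib
import Fermat.Agent.S13.MulByN

/-!
# HW-b, part 1: primitive vectors, `sym2`, and the addition-and-subtraction map (S58, block HW)

Pure commutative algebra over an arbitrary commutative ring `A`:

* `IsPrim v`: the entries of `v` generate the unit ideal;
* `isPrim_sym2`: the symmetric square of two primitive pairs is primitive (Gauss);
* `isPrim_asMap`: for an elliptic `W` over `A`, `asMap W` preserves primitivity (from Mathlib's
  explicit certificates `WeierstrassCurve.addSubMapCoeff_condition`);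
* `exists_unit_of_proportional`: two primitive vectors which become proportional in a field are
  associated.
-/

open WeierstrassCurve
open Fermat.Agent.S13.AddSub

namespace Fermat.Agent.EC.HWb

section Prim

variable {A : Type*} [CommRing A]

/-- A vector is *primitive* if its entries generate the unit ideal. -/
def IsPrim {n : ℕ} (v : Fin n → A) : Prop := ∃ a : Fin n → A, ∑ i, a i * v i = 1

theorem isPrim_iff_span {n : ℕ} (v : Fin n → A) : IsPrim v ↔ Ideal.span (Set.range v) = ⊤ := by
  rw [Ideal.eq_top_iff_one, Ideal.mem_span_range_iff_exists_fun]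
  rfl

theorem isPrim_pair_iff (p : Fin 2 → A) : IsPrim p ↔ IsCoprime (p 0) (p 1) := by
  constructor
  · rintro ⟨a, ha⟩
    exact ⟨a 0, a 1, by simpa [Fin.sum_univ_two] using ha⟩
  · rintro ⟨a, b, hab⟩
    exact ⟨![a, b], by simpa [Fin.sum_univ_two] using hab⟩

theorem IsPrim.ne_zero [Nontrivial A] {n : ℕ} {v : Fin n → A} (hv : IsPrim v) : v ≠ 0 := by
  rintro rfl
  obtain ⟨a, ha⟩ := hv
  simp at ha

/-- If `v` is primitive and all `m`-th powers of its entries lie in an ideal `I`, then `I = ⊤`. -/
theorem IsPrim.eq_top_of_pow_mem {n : ℕ} {v : Fin n → A} (hv : IsPrim v) (m : ℕ) {I : Ideal A}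
    (h : ∀ i, v i ^ m ∈ I) : I = ⊤ := by
  rw [isPrim_iff_span] at hv
  have h1 := Ideal.span_pow_eq_top _ hv m
  rw [eq_top_iff, ← h1, Ideal.span_le]
  rintro _ ⟨_, ⟨i, rfl⟩, rfl⟩
  exact h i

/-- **Gauss**: the symmetric square of two primitive pairs is primitive. -/
theorem isPrim_sym2 {p p' : Fin 2 → A} (hp : IsPrim p) (hp' : IsPrim p') :
    IsPrim (sym2 p p') := by
  rw [isPrim_iff_span]
  by_contra hI
  obtain ⟨M, hM, hIM⟩ := Ideal.exists_le_maximal _ hI
  have hmem : ∀ j, sym2 p p' j ∈ M := fun j => hIM (Ideal.subset_span ⟨j, rfl⟩)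
  have h0 : p 0 * p' 0 ∈ M := by simpa [sym2] using hmem 0
  have h1 : p 0 * p' 1 + p 1 * p' 0 ∈ M := by simpa [sym2] using hmem 1
  have h2 : p 1 * p' 1 ∈ M := by simpa [sym2] using hmem 2
  obtain ⟨a, ha⟩ := hp
  obtain ⟨a', ha'⟩ := hp'
  rw [Fin.sum_univ_two] at ha ha'
  have hne : (1 : A) ∉ M := (Ideal.ne_top_iff_one M).mp hM.ne_top
  have hpr := hM.isPrime
  -- not both entries of a primitive pair lie in `M`
  have hnp : ¬ (p 0 ∈ M ∧ p 1 ∈ M) := fun ⟨x, y⟩ =>
    hne (ha ▸ M.add_mem (M.mul_mem_left _ x) (M.mul_mem_left _ y))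
  have hnp' : ¬ (p' 0 ∈ M ∧ p' 1 ∈ M) := fun ⟨x, y⟩ =>
    hne (ha' ▸ M.add_mem (M.mul_mem_left _ x) (M.mul_mem_left _ y))
  rcases hpr.mem_or_mem h0 with h | h
  · -- `p 0 ∈ M`
    have hp1 : p 1 ∉ M := fun h' => hnp ⟨h, h'⟩
    have hp'1 : p' 1 ∈ M := (hpr.mem_or_mem h2).resolve_left hp1
    have h3 : p 1 * p' 0 ∈ M := by
      have := M.sub_mem h1 (M.mul_mem_right (p' 1) h)
      simpa using this
    exact hnp' ⟨(hpr.mem_or_mem h3).resolve_left hp1, hp'1⟩
  · -- `p' 0 ∈ M`
    have hp'1 : p' 1 ∉ M := fun h' => hnp' ⟨h, h'⟩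
    have hp1 : p 1 ∈ M := (hpr.mem_or_mem h2).resolve_right hp'1
    have h3 : p 0 * p' 1 ∈ M := by
      have := M.sub_mem h1 (M.mul_mem_right (p' 0) hp1)
      simpa using this
    exact hnp ⟨(hpr.mem_or_mem h3).resolve_right hp'1, hp1⟩

/-- For an elliptic curve over any commutative ring, the addition-and-subtraction map preserves
primitive vectors (base-point-freeness, with Mathlib's explicit certificates). -/
theorem isPrim_asMap (W : WeierstrassCurve A) [W.IsElliptic] {v : Fin 3 → A} (hv : IsPrim v) :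
    IsPrim (asMap W v) := by
  rw [isPrim_iff_span]
  refine hv.eq_top_of_pow_mem 4 fun i => ?_
  rw [← addSubMapCoeff_condition W v i]
  refine Ideal.sum_mem _ fun j _ => Ideal.mul_mem_left _ _ (Ideal.subset_span ⟨j, ?_⟩)
  rw [asMap_eq_eval]

/-- Two primitive vectors that become proportional under an injective ring homomorphism to a
field are associated. -/
theorem exists_unit_of_proportional {F : Type*} [Field F] (φ : A →+* F)
    (hφ : Function.Injective φ) {n : ℕ} {v w : Fin n → A} (hv : IsPrim v) (hw : IsPrim w)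
    (c : F) (h : ∀ i, φ (v i) = c * φ (w i)) : ∃ u : Aˣ, ∀ i, v i = u * w i := by
  have hminor : ∀ i j, v i * w j = v j * w i := by
    intro i j
    apply hφ
    rw [map_mul, map_mul, h i, h j]
    ring
  obtain ⟨a, ha⟩ := hv
  obtain ⟨b, hb⟩ := hw
  set s : A := ∑ i, b i * v i with hs
  set t : A := ∑ i, a i * w i with ht
  have h1 : ∀ j, v j = s * w j := by
    intro j
    calc v j = v j * ∑ i, b i * w i := by rw [hb, mul_one]
      _ = ∑ i, b i * (v j * w i) := by
          rw [Finset.mul_sum]; exact Finset.sum_congr rfl fun i _ => by ring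
      _ = ∑ i, b i * (v i * w j) := by
          exact Finset.sum_congr rfl fun i _ => by rw [hminor i j]
      _ = s * w j := by
          rw [hs, Finset.sum_mul]; exact Finset.sum_congr rfl fun i _ => by ring
  have h2 : ∀ j, w j = t * v j := by
    intro j
    calc w j = w j * ∑ i, a i * v i := by rw [ha, mul_one]
      _ = ∑ i, a i * (v i * w j) := by
          rw [Finset.mul_sum]; exact Finset.sum_congr rfl fun i _ => by ring
      _ = ∑ i, a i * (v j * w i) := by
          exact Finset.sum_congr rfl fun i _ => by rw [hminor i j]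
      _ = t * v j := by
          rw [ht, Finset.sum_mul]; exact Finset.sum_congr rfl fun i _ => by ring
  have hst : s * t = 1 := by
    calc s * t = s * t * ∑ i, a i * v i := by rw [ha, mul_one]
      _ = ∑ i, a i * (s * (t * v i)) := by
          rw [Finset.mul_sum]; exact Finset.sum_congr rfl fun i _ => by ring
      _ = ∑ i, a i * v i := by
          exact Finset.sum_congr rfl fun i _ => by rw [← h2 i, ← h1 i]
      _ = 1 := ha
  exact ⟨Units.mkOfMulEqOne s t hst, fun j => by simpa using h1 j⟩

end Prim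

section Maps

variable {A B : Type*} [CommRing A] [CommRing B]

theorem sym2_comp (f : A →+* B) (p p' : Fin 2 → A) :
    sym2 (fun i => f (p i)) (fun i => f (p' i)) = fun j => f (sym2 p p' j) := by
  funext j
  fin_cases j <;> simp [sym2]

theorem asMap_comp (W : WeierstrassCurve A) (f : A →+* B) (v : Fin 3 → A) :
    asMap (W.map f) (fun i => f (v i)) = fun j => f (asMap W v j) := by
  funext j
  fin_cases j <;> simp [asMap, map_ofNat]

end Maps

end Fermat.Agent.EC.HWb
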