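import Mathlib
import Fermat.Agent.EC.HWb.Prim

/-!
# HW-b, part 2: heights of polynomial vectors (S58, block HW)

For a vector `v` of polynomials over a field `k`, `IsTop v d` says that `d` is the height of `v`
(the maximum of the degrees of the entries) and `v ≠ 0`.  We show that `sym2` adds heights and
that the addition-and-subtraction map of an elliptic curve with constant coefficients doubles
heights (via the top coefficient vector and Mathlib's `WeierstrassCurve.addSubMap_ne_zero`).
-/

open Polynomial WeierstrassCurve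
open Fermat.Agent.S13.AddSub

namespace Fermat.Agent.EC.HWb

variable {k : Type*} [Field k]

/-- `IsTop v d`: every entry of `v` has degree `≤ d`, and some entry has a nonzero coefficient in
degree `d`.  Thus `v ≠ 0` and `d` is the maximum of the degrees of the entries. -/
def IsTop {n : ℕ} (v : Fin n → k[X]) (d : ℕ) : Prop :=
  (∀ i, (v i).natDegree ≤ d) ∧ ∃ i, (v i).coeff d ≠ 0

theorem IsTop.unique {n : ℕ} {v : Fin n → k[X]} {d d' : ℕ} (h : IsTop v d) (h' : IsTop v d') :
    d = d' := by
  by_contra hne
  rcases lt_or_gt_of_ne hne with hlt | hlt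
  · obtain ⟨i, hi⟩ := h'.2
    exact hi (coeff_eq_zero_of_natDegree_lt (lt_of_le_of_lt (h.1 i) hlt))
  · obtain ⟨i, hi⟩ := h.2
    exact hi (coeff_eq_zero_of_natDegree_lt (lt_of_le_of_lt (h'.1 i) hlt))

/-- The height of a pair of polynomials. -/
def pairHeight (p : Fin 2 → k[X]) : ℕ := max (p 0).natDegree (p 1).natDegree

theorem isTop_pairHeight {p : Fin 2 → k[X]} (hp : p ≠ 0) : IsTop p (pairHeight p) := by
  refine ⟨fun i => ?_, ?_⟩
  · fin_cases i
    · exact le_max_left _ _
    · exact le_max_right _ _
  · unfold pairHeight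
    rcases le_total (p 1).natDegree (p 0).natDegree with h | h
    · rw [max_eq_left h]
      by_cases h0 : p 0 = 0
      · have h1 : p 1 ≠ 0 := by
          intro h1
          apply hp
          funext i
          fin_cases i
          · exact h0
          · exact h1
        refine ⟨1, ?_⟩
        have hd : (p 1).natDegree = 0 := by simpa [h0] using h
        rw [h0, natDegree_zero, ← hd]
        exact leadingCoeff_ne_zero.mpr h1
      · exact ⟨0, leadingCoeff_ne_zero.mpr h0⟩
    · rw [max_eq_right h]
      by_cases h1 : p 1 = 0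
      · have h0 : p 0 ≠ 0 := by
          intro h0
          apply hp
          funext i
          fin_cases i
          · exact h0
          · exact h1
        refine ⟨0, ?_⟩
        have hd : (p 0).natDegree = 0 := by simpa [h1] using h
        rw [h1, natDegree_zero, ← hd]
        exact leadingCoeff_ne_zero.mpr h0
      · exact ⟨1, leadingCoeff_ne_zero.mpr h1⟩

theorem IsTop.pairHeight_eq {p : Fin 2 → k[X]} {d : ℕ} (h : IsTop p d) : pairHeight p = d := by
  have hp : p ≠ 0 := by
    rintro rfl
    obtain ⟨i, hi⟩ := h.2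
    simp at hi
  exact (isTop_pairHeight hp).unique h

/-- Scaling by a nonzero constant does not change the height. -/
theorem IsTop.C_smul {n : ℕ} {v : Fin n → k[X]} {d : ℕ} (h : IsTop v d) {c : k} (hc : c ≠ 0) :
    IsTop (C c • v) d := by
  refine ⟨fun i => ?_, ?_⟩
  · simp only [Pi.smul_apply, smul_eq_mul]
    exact (natDegree_C_mul_le _ _).trans (h.1 i)
  · obtain ⟨i, hi⟩ := h.2
    refine ⟨i, ?_⟩
    simp only [Pi.smul_apply, smul_eq_mul, coeff_C_mul]
    exact mul_ne_zero hc hi

/-- `sym2` adds heights. -/
theorem IsTop.sym2 {p p' : Fin 2 → k[X]} {d d' : ℕ} (h : IsTop p d) (h' : IsTop p' d') :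
    IsTop (sym2 p p') (d + d') := by
  have hmul : ∀ a b, (p a * p' b).natDegree ≤ d + d' := fun a b =>
    natDegree_mul_le_of_le (h.1 a) (h'.1 b)
  have hco : ∀ a b, (p a * p' b).coeff (d + d') = (p a).coeff d * (p' b).coeff d' := fun a b =>
    coeff_mul_add_eq_of_natDegree_le (h.1 a) (h'.1 b)
  refine ⟨fun j => ?_, ?_⟩
  · fin_cases j
    · simpa [Fermat.Agent.S13.AddSub.sym2] using hmul 0 0
    · simpa [Fermat.Agent.S13.AddSub.sym2] using
        (natDegree_add_le _ _).trans (max_le (hmul 0 1) (hmul 1 0))
    · simpa [Fermat.Agent.S13.AddSub.sym2] using hmul 1 1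
  · by_contra hall
    push Not at hall
    have hz : Fermat.Agent.S13.AddSub.sym2 (fun i => (p i).coeff d) (fun i => (p' i).coeff d')
        = 0 := by
      funext j
      fin_cases j
      · simpa [Fermat.Agent.S13.AddSub.sym2, hco] using hall 0
      · simpa [Fermat.Agent.S13.AddSub.sym2, hco] using hall 1
      · simpa [Fermat.Agent.S13.AddSub.sym2, hco] using hall 2
    have hv' : (fun i => (p' i).coeff d') ≠ 0 := by
      obtain ⟨i, hi⟩ := h'.2
      exact fun hzero => hi (congrFun hzero i)
    have hu := eq_zero_of_sym2_eq_zero hv' hz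
    obtain ⟨i, hi⟩ := h.2
    exact hi (congrFun hu i)

/-- The addition-and-subtraction map of an elliptic curve with constant coefficients doubles
heights. -/
theorem IsTop.asMap (W : WeierstrassCurve k) [W.IsElliptic] {v : Fin 3 → k[X]} {d : ℕ}
    (h : IsTop v d) : IsTop (asMap (W.map C) v) (d + d) := by
  have hmul : ∀ a b, (v a * v b).natDegree ≤ d + d := fun a b =>
    natDegree_mul_le_of_le (h.1 a) (h.1 b)
  have hCmul : ∀ (c : k) a b, (C c * v a * v b).natDegree ≤ d + d := fun c a b => by
    rw [mul_assoc]
    exact (natDegree_C_mul_le _ _).trans (hmul a b)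
  have hco : ∀ a b, (v a * v b).coeff (d + d) = (v a).coeff d * (v b).coeff d := fun a b =>
    coeff_mul_add_eq_of_natDegree_le (h.1 a) (h.1 b)
  have hCco : ∀ (c : k) a b, (C c * v a * v b).coeff (d + d)
      = c * (v a).coeff d * (v b).coeff d := fun c a b => by
    rw [mul_assoc, coeff_C_mul, hco, mul_assoc]
  have h2 : (2 : k[X]) = C 2 := (map_ofNat C 2).symm
  have h4 : (4 : k[X]) = C 4 := (map_ofNat C 4).symm
  have hsub : ∀ {f g : k[X]}, f.natDegree ≤ d + d → g.natDegree ≤ d + d →
      (f - g).natDegree ≤ d + d := fun hf hg => (natDegree_sub_le _ _).trans (max_le hf hg)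
  refine ⟨fun j => ?_, ?_⟩
  · fin_cases j
    · simp only [Fermat.Agent.S13.AddSub.asMap, map_b₄, map_b₆, map_b₈, pow_two, Fin.zero_eta,
        Matrix.cons_val_zero]
      refine hsub (hsub (hsub ?_ ?_) ?_) ?_
      · exact hmul 0 0
      · exact hCmul _ 0 2
      · exact hCmul _ 1 2
      · rw [← mul_assoc]; exact hCmul _ 2 2
    · simp only [Fermat.Agent.S13.AddSub.asMap, map_b₂, map_b₄, map_b₆, pow_two, Fin.mk_one,
        Matrix.cons_val_one, Matrix.cons_val_zero, h2]
      refine (natDegree_add_le_of_degree_le (natDegree_add_le_of_degree_le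
        (natDegree_add_le_of_degree_le ?_ ?_) ?_) ?_)
      · exact hCmul _ 1 0
      · exact hCmul _ 0 2
      · exact hCmul _ 1 2
      · rw [← mul_assoc]; exact hCmul _ 2 2
    · simp only [Fermat.Agent.S13.AddSub.asMap, pow_two, Fin.reduceFinMk, Matrix.cons_val, h4]
      refine hsub ?_ ?_
      · exact hmul 1 1
      · exact hCmul _ 0 2
  · by_contra hall
    push Not at hall
    have hz : (fun i => MvPolynomial.eval (fun i => (v i).coeff d) (addSubMap W i)) = 0 := by
      rw [← asMap_eq_eval]
      funext j
      have hj := hall j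
      fin_cases j
      · simp only [Fermat.Agent.S13.AddSub.asMap, map_b₄, map_b₆, map_b₈, pow_two, Fin.zero_eta,
          Matrix.cons_val_zero, coeff_sub, hco, hCco, ← mul_assoc] at hj ⊢
        simpa using hj
      · simp only [Fermat.Agent.S13.AddSub.asMap, map_b₂, map_b₄, map_b₆, pow_two, Fin.mk_one,
          Matrix.cons_val_one, Matrix.cons_val_zero, h2, coeff_add, hCco, ← mul_assoc] at hj ⊢
        simpa using hj
      · simp only [Fermat.Agent.S13.AddSub.asMap, pow_two, Fin.reduceFinMk, Matrix.cons_val, h4,
          coeff_sub, hco, hCco] at hj ⊢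
        simpa using hj
    have hv : (fun i => (v i).coeff d) ≠ 0 := by
      obtain ⟨i, hi⟩ := h.2
      exact fun hzero => hi (congrFun hzero i)
    exact addSubMap_ne_zero W hv hz

end Fermat.Agent.EC.HWb
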