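import Mathlib
import Fermat.Agent.EC.HWb.Height

/-!
# HW-b, part 3: the exact parallelogram law in polynomial form (S58, block HW)

`k` a field, `W` an elliptic curve over `k`, `F` a field containing `k[X]` (e.g. the function
field of `W`).  For points `Q`, `R` of `W` over `F` such that the x-coordinates of `Q`, `R`,
`Q + R`, `Q - R` are represented by primitive pairs `p`, `p'`, `pp`, `pm` of polynomials:

* `sym2_law`: `sym2 pp pm = C c • asMap (W.map C) (sym2 p p')` for some `c ≠ 0` in `k`;
* `pairHeight_law`: `pairHeight pp + pairHeight pm = 2 * pairHeight p + 2 * pairHeight p'`.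

No valuations, no places, all characteristics.
-/

open Polynomial WeierstrassCurve
open Fermat.Agent.S13.AddSub

namespace Fermat.Agent.EC.HWb

variable {k : Type*} [Field k]

/-- The pair of polynomials `p` represents the (projective) x-coordinate of the point `Q`. -/
def XRepBy {F : Type*} [Field F] [Algebra k[X] F] {W' : Affine F} (Q : W'.Point)
    (p : Fin 2 → k[X]) : Prop :=
  ∃ c : F, c ≠ 0 ∧ Q.xRep = c • fun i => algebraMap k[X] F (p i)

section Law

variable (W : WeierstrassCurve k) [W.IsElliptic] {F : Type*} [Field F] [DecidableEq F]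
  [Algebra k F] [Algebra k[X] F] [IsScalarTower k k[X] F]

/-- **Exact addition-and-subtraction law for primitive polynomial pairs** (vector form). -/
theorem sym2_law (hinj : Function.Injective (algebraMap k[X] F))
    (Q R : (W.baseChange F).toAffine.Point) {p p' pp pm : Fin 2 → k[X]}
    (hp : IsPrim p) (hp' : IsPrim p') (hpp : IsPrim pp) (hpm : IsPrim pm)
    (hQ : XRepBy Q p) (hR : XRepBy R p') (hadd : XRepBy (Q + R) pp) (hsub : XRepBy (Q - R) pm) :
    ∃ c : k, c ≠ 0 ∧ sym2 pp pm = C c • asMap (W.map C) (sym2 p p') := by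
  set φ : k[X] →+* F := algebraMap k[X] F with hφ
  obtain ⟨cQ, hcQ, hQ⟩ := hQ
  obtain ⟨cR, hcR, hR⟩ := hR
  obtain ⟨ca, hca, hadd⟩ := hadd
  obtain ⟨cs, hcs, hsub⟩ := hsub
  obtain ⟨lam, hlam, hlaw⟩ := asMap_sym2x (W.baseChange F).toAffine Q R
  have hWF : (W.baseChange F) = (W.map C).map φ := by
    rw [WeierstrassCurve.map_map]
    change W.map (algebraMap k F) = _
    rw [IsScalarTower.algebraMap_eq k k[X] F]
    rfl
  -- left side
  have hL : asMap (W.baseChange F) (Q.sym2x R)
      = (cQ * cR) ^ 2 • fun j => φ (asMap (W.map C) (sym2 p p') j) := by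
    rw [sym2x_eq_sym2, hQ, hR, sym2_smul_left, sym2_smul_right, smul_smul, asMap_smul,
      sym2_comp φ p p', hWF, asMap_comp]
  -- right side
  have hR' : (Q + R).sym2x (Q - R) = (ca * cs) • fun j => φ (sym2 pp pm j) := by
    rw [sym2x_eq_sym2, hadd, hsub, sym2_smul_left, sym2_smul_right, smul_smul, sym2_comp φ pp pm]
  have hprop : ∀ j, φ (sym2 pp pm j)
      = ((cQ * cR) ^ 2 / (lam * (ca * cs))) * φ (asMap (W.map C) (sym2 p p') j) := by
    intro j
    have h1 := congrFun hlaw j
    change asMap (W.baseChange F) (Q.sym2x R) j = _ at h1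
    rw [hL, hR'] at h1
    simp only [Pi.smul_apply, smul_eq_mul] at h1
    have hne : lam * (ca * cs) ≠ 0 := mul_ne_zero hlam (mul_ne_zero hca hcs)
    field_simp
    linear_combination (-1 : F) * h1
  obtain ⟨u, hu⟩ := exists_unit_of_proportional φ hinj (isPrim_sym2 hpp hpm)
    (isPrim_asMap (W.map C) (isPrim_sym2 hp hp')) _ hprop
  obtain ⟨c, hc, hcu⟩ := Polynomial.isUnit_iff.mp u.isUnit
  refine ⟨c, hc.ne_zero, ?_⟩
  funext j
  rw [hu j, ← hcu]
  rfl

/-- **Exact parallelogram law for heights of primitive polynomial pairs.** -/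
theorem pairHeight_law (hinj : Function.Injective (algebraMap k[X] F))
    (Q R : (W.baseChange F).toAffine.Point) {p p' pp pm : Fin 2 → k[X]}
    (hp : IsPrim p) (hp' : IsPrim p') (hpp : IsPrim pp) (hpm : IsPrim pm)
    (hQ : XRepBy Q p) (hR : XRepBy R p') (hadd : XRepBy (Q + R) pp) (hsub : XRepBy (Q - R) pm) :
    pairHeight pp + pairHeight pm = 2 * pairHeight p + 2 * pairHeight p' := by
  obtain ⟨c, hc, hlaw⟩ := sym2_law W hinj Q R hp hp' hpp hpm hQ hR hadd hsub
  have t1 := (isTop_pairHeight hpp.ne_zero).sym2 (isTop_pairHeight hpm.ne_zero)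
  have t2 := (((isTop_pairHeight hp.ne_zero).sym2 (isTop_pairHeight hp'.ne_zero)).asMap W).C_smul hc
  rw [← hlaw] at t2
  have := t1.unique t2
  omega

end Law

theorem closed_form_of_rec_nat (d : ℤ → ℤ) (h : ℤ)
    (hrec : ∀ n, d (n + 1) + d (n - 1) = 2 * d n + 2 * h) (m : ℕ) :
    d m = h * (m : ℤ) ^ 2 + (d 1 - d 0 - h) * m + d 0 := by
  have key : ∀ m : ℕ, d m = h * (m : ℤ) ^ 2 + (d 1 - d 0 - h) * m + d 0 ∧
      d (m + 1) = h * ((m : ℤ) + 1) ^ 2 + (d 1 - d 0 - h) * (m + 1) + d 0 := by
    intro m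
    induction m with
    | zero => constructor <;> simp
    | succ m ih =>
      refine ⟨by push_cast; exact ih.2, ?_⟩
      have := hrec (m + 1)
      rw [add_sub_cancel_right] at this
      push_cast
      linear_combination this + 2 * ih.2 - ih.1
  exact (key m).1

/-- Closed form of a sequence satisfying the parallelogram recursion. -/
theorem closed_form_of_rec (d : ℤ → ℤ) (h : ℤ)
    (hrec : ∀ n, d (n + 1) + d (n - 1) = 2 * d n + 2 * h) (n : ℤ) :
    d n = h * n ^ 2 + (d 1 - d 0 - h) * n + d 0 := by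
  rcases Int.eq_nat_or_neg n with ⟨m, rfl | rfl⟩
  · exact closed_form_of_rec_nat d h hrec m
  · have hrec' : ∀ n, (fun n => d (-n)) (n + 1) + (fun n => d (-n)) (n - 1)
        = 2 * (fun n => d (-n)) n + 2 * h := by
      intro n
      have := hrec (-n)
      simp only
      rw [neg_add, neg_sub, ← sub_eq_add_neg, add_comm, sub_eq_add_neg 1 n, add_comm 1 (-n)]
      exact this
    have h1 := closed_form_of_rec_nat (fun n => d (-n)) h hrec' m
    have h0 := hrec 0
    simp only [zero_add, zero_sub, neg_zero] at h1 h0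
    rw [h1]
    linear_combination (m : ℤ) * h0

end Fermat.Agent.EC.HWb
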