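import Mathlib
import Fermat.Agent.EC.HWb.Law

/-!
# HW-b, part 4: the height of a point with x-coordinate in `k(x)` (S58, block HW)

`IsXRat Q`: the x-coordinate of `Q` is represented by a primitive pair of polynomials.
`ptHeight Q`: the height of such a pair (well defined).  We package the exact parallelogram law
and the closed form `ptHeight (Q - n • R) = h(R) n² + (h(Q - R) - h(Q) - h(R)) n + h(Q)`.
-/

open Polynomial WeierstrassCurve
open Fermat.Agent.S13.AddSub

namespace Fermat.Agent.EC.HWb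

variable {k : Type*} [Field k]

/-- Every pair of polynomials with nonzero second entry is a multiple of a primitive pair. -/
theorem exists_isPrim_pair (u w : k[X]) (hw : w ≠ 0) :
    ∃ (p : Fin 2 → k[X]) (g : k[X]), IsPrim p ∧ g ≠ 0 ∧ u = g * p 0 ∧ w = g * p 1 ∧ p 1 ≠ 0 := by
  classical
  set g := gcd u w with hg
  have hg0 : g ≠ 0 := gcd_ne_zero_of_right hw
  have hu : u = g * (u / g) := (EuclideanDomain.mul_div_cancel' hg0 (gcd_dvd_left u w)).symm
  have hw' : w = g * (w / g) := (EuclideanDomain.mul_div_cancel' hg0 (gcd_dvd_right u w)).symm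
  refine ⟨![u / g, w / g], g, ?_, hg0, by simpa using hu, by simpa using hw', ?_⟩
  · rw [isPrim_pair_iff]
    simpa using isCoprime_div_gcd_div_gcd (p := u) (q := w) hw
  · intro h
    apply hw
    rw [hw']
    simp only [Matrix.cons_val_one, Matrix.cons_val_zero] at h
    rw [h, mul_zero]

section Pt

variable {F : Type*} [Field F] [Algebra k[X] F] {W' : Affine F}

/-- The x-coordinate of `Q` is represented by a primitive pair of polynomials. -/
def IsXRat (Q : W'.Point) : Prop := ∃ p : Fin 2 → k[X], IsPrim p ∧ XRepBy Q p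

/-- The height of (a primitive pair representing the x-coordinate of) `Q`; junk value `0` if
there is no such pair. -/
noncomputable def ptHeight (Q : W'.Point) : ℕ :=
  sInf {d | ∃ p : Fin 2 → k[X], IsPrim p ∧ XRepBy Q p ∧ pairHeight p = d}

theorem xRepBy_zero : XRepBy (k := k) (0 : W'.Point) ![1, 0] := by
  refine ⟨1, one_ne_zero, ?_⟩
  funext i
  fin_cases i <;> simp

theorem isXRat_zero : IsXRat (k := k) (0 : W'.Point) :=
  ⟨![1, 0], (isPrim_pair_iff _).mpr (by simpa using isCoprime_one_left), xRepBy_zero⟩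

theorem xRepBy_neg {Q : W'.Point} {p : Fin 2 → k[X]} (h : XRepBy Q p) : XRepBy (-Q) p := by
  obtain ⟨c, hc, h⟩ := h
  exact ⟨c, hc, by rw [Affine.Point.xRep_neg, h]⟩

theorem IsXRat.neg {Q : W'.Point} (h : IsXRat (k := k) Q) : IsXRat (k := k) (-Q) := by
  obtain ⟨p, hp, h⟩ := h
  exact ⟨p, hp, xRepBy_neg h⟩

/-- A point whose x-coordinate is a quotient of two polynomials is `IsXRat`. -/
theorem isXRat_some_of_mul_eq (hinj : Function.Injective (algebraMap k[X] F)) {x y : F}
    (h : W'.Nonsingular x y) (u w : k[X]) (hw : w ≠ 0)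
    (hx : x * algebraMap k[X] F w = algebraMap k[X] F u) :
    IsXRat (k := k) (Affine.Point.some x y h) := by
  obtain ⟨p, g, hp, hg, hu, hw', hp1⟩ := exists_isPrim_pair u w hw
  have hφg : algebraMap k[X] F g ≠ 0 := (map_ne_zero_iff _ hinj).mpr hg
  have hφp1 : algebraMap k[X] F (p 1) ≠ 0 := (map_ne_zero_iff _ hinj).mpr hp1
  refine ⟨p, hp, (algebraMap k[X] F (p 1))⁻¹, inv_ne_zero hφp1, ?_⟩
  rw [hu, hw', map_mul, map_mul] at hx
  have hx' : x * algebraMap k[X] F (p 1) = algebraMap k[X] F (p 0) := by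
    apply mul_left_cancel₀ hφg
    linear_combination hx
  funext i
  fin_cases i
  · simp only [Affine.Point.xRep_some, Fin.zero_eta, Matrix.cons_val_zero, Pi.smul_apply,
      smul_eq_mul]
    rw [← hx']
    field_simp
  · simp only [Affine.Point.xRep_some, Fin.mk_one, Matrix.cons_val_one, Matrix.cons_val_zero,
      Pi.smul_apply, smul_eq_mul]
    field_simp

/-- Two primitive pairs representing the same point have the same height. -/
theorem pairHeight_eq_of_xRepBy (hinj : Function.Injective (algebraMap k[X] F)) {Q : W'.Point}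
    {p p' : Fin 2 → k[X]} (hp : IsPrim p) (hp' : IsPrim p') (hQ : XRepBy Q p)
    (hQ' : XRepBy Q p') : pairHeight p = pairHeight p' := by
  obtain ⟨c, hc, hQ⟩ := hQ
  obtain ⟨c', hc', hQ'⟩ := hQ'
  have hprop : ∀ i, algebraMap k[X] F (p i) = (c' / c) * algebraMap k[X] F (p' i) := by
    intro i
    have := congrFun (hQ.symm.trans hQ') i
    simp only [Pi.smul_apply, smul_eq_mul] at this
    field_simp
    linear_combination this
  obtain ⟨u, hu⟩ := exists_unit_of_proportional (algebraMap k[X] F) hinj hp hp' _ hprop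
  obtain ⟨a, ha, hau⟩ := Polynomial.isUnit_iff.mp u.isUnit
  have hpeq : p = C a • p' := by
    funext i
    rw [hu i, ← hau]
    rfl
  have t := (isTop_pairHeight hp'.ne_zero).C_smul ha.ne_zero
  rw [← hpeq] at t
  exact t.pairHeight_eq

theorem ptHeight_eq (hinj : Function.Injective (algebraMap k[X] F)) {Q : W'.Point}
    {p : Fin 2 → k[X]} (hp : IsPrim p) (hQ : XRepBy Q p) : ptHeight (k := k) Q = pairHeight p := by
  have hset : {d | ∃ p' : Fin 2 → k[X], IsPrim p' ∧ XRepBy Q p' ∧ pairHeight p' = d}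
      = {pairHeight p} := by
    ext d
    simp only [Set.mem_ofPred_eq, Set.mem_singleton_iff]
    constructor
    · rintro ⟨p', hp', hQ', rfl⟩
      exact pairHeight_eq_of_xRepBy hinj hp' hp hQ' hQ
    · rintro rfl
      exact ⟨p, hp, hQ, rfl⟩
  unfold ptHeight
  rw [hset, csInf_singleton]

theorem ptHeight_neg (Q : W'.Point) : ptHeight (k := k) (-Q) = ptHeight (k := k) Q := by
  have hrep : ∀ p : Fin 2 → k[X], XRepBy (-Q) p ↔ XRepBy Q p := fun p =>
    ⟨fun h => by simpa using xRepBy_neg h, xRepBy_neg⟩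
  unfold ptHeight
  simp only [hrep]

end Pt

section Law

variable (W : WeierstrassCurve k) [W.IsElliptic] {F : Type*} [Field F] [DecidableEq F]
  [Algebra k F] [Algebra k[X] F] [IsScalarTower k k[X] F]

/-- **Exact parallelogram law** for the height of points with x-coordinate in `k(x)`. -/
theorem ptHeight_law (hinj : Function.Injective (algebraMap k[X] F))
    (Q R : (W.baseChange F).toAffine.Point) (hQ : IsXRat (k := k) Q) (hR : IsXRat (k := k) R)
    (hadd : IsXRat (k := k) (Q + R)) (hsub : IsXRat (k := k) (Q - R)) :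
    ptHeight (k := k) (Q + R) + ptHeight (k := k) (Q - R)
      = 2 * ptHeight (k := k) Q + 2 * ptHeight (k := k) R := by
  obtain ⟨p, hp, hQ⟩ := hQ
  obtain ⟨p', hp', hR⟩ := hR
  obtain ⟨pp, hpp, hadd⟩ := hadd
  obtain ⟨pm, hpm, hsub⟩ := hsub
  rw [ptHeight_eq hinj hp hQ, ptHeight_eq hinj hp' hR, ptHeight_eq hinj hpp hadd,
    ptHeight_eq hinj hpm hsub]
  exact pairHeight_law W hinj Q R hp hp' hpp hpm hQ hR hadd hsub

/-- **Closed form** of the height along `n ↦ Q - n • R`. -/
theorem ptHeight_sub_zsmul (hinj : Function.Injective (algebraMap k[X] F))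
    (Q R : (W.baseChange F).toAffine.Point) (hR : IsXRat (k := k) R)
    (hQ : ∀ n : ℤ, IsXRat (k := k) (Q - n • R)) (n : ℤ) :
    (ptHeight (k := k) (Q - n • R) : ℤ)
      = (ptHeight (k := k) R : ℤ) * n ^ 2
        + ((ptHeight (k := k) (Q - R) : ℤ) - ptHeight (k := k) Q - ptHeight (k := k) R) * n
        + ptHeight (k := k) Q := by
  have hrec : ∀ m : ℤ, (fun m : ℤ => (ptHeight (k := k) (Q - m • R) : ℤ)) (m + 1)
      + (fun m : ℤ => (ptHeight (k := k) (Q - m • R) : ℤ)) (m - 1)
      = 2 * (fun m : ℤ => (ptHeight (k := k) (Q - m • R) : ℤ)) m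
        + 2 * (ptHeight (k := k) R : ℤ) := by
    intro m
    have e1 : Q - (m + 1) • R = (Q - m • R) - R := by rw [add_zsmul, one_zsmul]; abel
    have e2 : Q - (m - 1) • R = (Q - m • R) + R := by rw [sub_zsmul, one_zsmul]; abel
    have := ptHeight_law W hinj (Q - m • R) R (hQ m) hR (e2 ▸ hQ (m - 1)) (e1 ▸ hQ (m + 1))
    simp only [e1, e2]
    exact_mod_cast (by omega : ptHeight (k := k) (Q - m • R - R) + ptHeight (k := k) (Q - m • R + R)
      = 2 * ptHeight (k := k) (Q - m • R) + 2 * ptHeight (k := k) R)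
  have := closed_form_of_rec (fun m : ℤ => (ptHeight (k := k) (Q - m • R) : ℤ)) _ hrec n
  simp only [zero_smul, sub_zero, one_zsmul] at this
  exact this

end Law

end Fermat.Agent.EC.HWb
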