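import Mathlib
import Fermat.Agent.EC.HWb.PtHeight

/-!
# HW-b, part 5: points of height zero are constant (S58, block HW)

* `pairHeight_eq_zero_iff`: a pair has height `0` iff both entries are constants;
* `eq_zero_or_const_of_ptHeight_eq_zero`: a point with x-coordinate in `k(x)` and height `0` is
  `0` or has x-coordinate in `k`;
* `exists_y_const`: over an algebraically closed `k`, a point of `W⁄F` with x-coordinate in `k`
  has y-coordinate in `k`;
* `ptHeight_const`: conversely a point with x-coordinate in `k` has height `0`;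
* `xRepBy_iff_aeval`: bridge between `algebraMap k[X] F p` and `aeval ξ p`, `ξ` the image of `X`.
-/

open Polynomial WeierstrassCurve
open Fermat.Agent.S13.AddSub

namespace Fermat.Agent.EC.HWb

variable {k : Type*} [Field k]

theorem pairHeight_eq_zero_iff (p : Fin 2 → k[X]) :
    pairHeight p = 0 ↔ ∃ a b : k, p = ![C a, C b] := by
  constructor
  · intro h
    unfold pairHeight at h
    have h0 : (p 0).natDegree = 0 := by omega
    have h1 : (p 1).natDegree = 0 := by omega
    refine ⟨(p 0).coeff 0, (p 1).coeff 0, ?_⟩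
    funext i
    fin_cases i
    · exact eq_C_of_natDegree_eq_zero h0
    · exact eq_C_of_natDegree_eq_zero h1
  · rintro ⟨a, b, rfl⟩
    simp [pairHeight]

section Pt

variable {F : Type*} [Field F] [Algebra k F] [Algebra k[X] F] [IsScalarTower k k[X] F]

theorem algebraMap_C_eq (a : k) : algebraMap k[X] F (C a) = algebraMap k F a :=
  (IsScalarTower.algebraMap_apply k k[X] F a).symm

/-- `algebraMap k[X] F p` is the evaluation of `p` at the image of `X`. -/
theorem algebraMap_eq_aeval (p : k[X]) :
    algebraMap k[X] F p = aeval (algebraMap k[X] F X) p := by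
  rw [aeval_algebraMap_apply, aeval_X_left_apply]

theorem xRepBy_iff_aeval {W' : Affine F} (Q : W'.Point) (p : Fin 2 → k[X]) :
    XRepBy Q p ↔ ∃ c : F, c ≠ 0 ∧
      Q.xRep = c • ![aeval (algebraMap k[X] F X) (p 0), aeval (algebraMap k[X] F X) (p 1)] := by
  have : (fun i => algebraMap k[X] F (p i))
      = ![aeval (algebraMap k[X] F X) (p 0), aeval (algebraMap k[X] F X) (p 1)] := by
    funext i
    fin_cases i
    · exact algebraMap_eq_aeval (p 0)
    · exact algebraMap_eq_aeval (p 1)
  unfold XRepBy
  rw [this]

/-- A point of height zero is `0` or has x-coordinate in `k`. -/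
theorem eq_zero_or_const_of_ptHeight_eq_zero (hinj : Function.Injective (algebraMap k[X] F))
    {W' : Affine F} {Q : W'.Point} (hQ : IsXRat (k := k) Q) (h0 : ptHeight (k := k) Q = 0) :
    Q = 0 ∨ ∃ (a : k) (y : F) (h : W'.Nonsingular (algebraMap k F a) y),
      Q = Affine.Point.some (algebraMap k F a) y h := by
  obtain ⟨p, hp, hQp⟩ := hQ
  rw [ptHeight_eq hinj hp hQp, pairHeight_eq_zero_iff] at h0
  obtain ⟨a, b, rfl⟩ := h0
  obtain ⟨c, hc, hQc⟩ := hQp
  rcases Q with _ | ⟨x, y, h⟩
  · exact Or.inl rfl
  · right
    have e0 := congrFun hQc 0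
    have e1 := congrFun hQc 1
    simp only [Affine.Point.xRep_some, Matrix.cons_val_zero, Matrix.cons_val_one, Pi.smul_apply,
      smul_eq_mul, algebraMap_C_eq] at e0 e1
    have hb : algebraMap k F b ≠ 0 := by
      intro hb
      rw [hb, mul_zero] at e1
      exact one_ne_zero e1
    have hx : x = algebraMap k F (a / b) := by
      rw [map_div₀, e0, eq_div_iff hb]
      linear_combination (-(algebraMap k F a)) * e1
    subst hx
    exact ⟨a / b, y, h, rfl⟩

/-- A point with x-coordinate in `k` has height zero. -/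
theorem ptHeight_const (hinj : Function.Injective (algebraMap k[X] F)) {W' : Affine F} (a : k)
    (y : F) (h : W'.Nonsingular (algebraMap k F a) y) :
    IsXRat (k := k) (Affine.Point.some (algebraMap k F a) y h) ∧
      ptHeight (k := k) (Affine.Point.some (algebraMap k F a) y h) = 0 := by
  have hp : IsPrim (![C a, 1] : Fin 2 → k[X]) :=
    (isPrim_pair_iff _).mpr (by simpa using isCoprime_one_right)
  have hQ : XRepBy (Affine.Point.some (algebraMap k F a) y h) (![C a, 1] : Fin 2 → k[X]) := by
    refine ⟨1, one_ne_zero, ?_⟩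
    funext i
    fin_cases i <;> simp [algebraMap_C_eq]
  refine ⟨⟨_, hp, hQ⟩, ?_⟩
  rw [ptHeight_eq hinj hp hQ, pairHeight_eq_zero_iff]
  exact ⟨a, 1, by simp⟩

omit [Algebra k F] [IsScalarTower k k[X] F] in
theorem ptHeight_zero (hinj : Function.Injective (algebraMap k[X] F)) {W' : Affine F} :
    ptHeight (k := k) (0 : W'.Point) = 0 := by
  have hp : IsPrim (![1, 0] : Fin 2 → k[X]) :=
    (isPrim_pair_iff _).mpr (by simpa using isCoprime_one_left)
  rw [ptHeight_eq hinj hp xRepBy_zero, pairHeight_eq_zero_iff]
  exact ⟨1, 0, by simp⟩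

omit [Algebra k[X] F] [IsScalarTower k k[X] F] in
/-- Over an algebraically closed field `k`, a point of `W⁄F` whose x-coordinate lies in `k` has
its y-coordinate in `k`. -/
theorem exists_y_const [IsAlgClosed k] (W : WeierstrassCurve k) (a : k) (y : F)
    (h : (W.baseChange F).toAffine.Equation (algebraMap k F a) y) :
    ∃ b : k, y = algebraMap k F b := by
  -- a root `r` of the quadratic `Y² + (a₁ a + a₃) Y - (a³ + a₂ a² + a₄ a + a₆)` in `k`
  set t : k := W.a₁ * a + W.a₃ with ht
  set f : k := a ^ 3 + W.a₂ * a ^ 2 + W.a₄ * a + W.a₆ with hf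
  have hdeg : (X ^ 2 + C t * X - C f : k[X]).degree ≠ 0 := by
    have : (X ^ 2 + C t * X - C f : k[X]).degree = 2 := by
      compute_degree!
    rw [this]; decide
  obtain ⟨r, hr⟩ := IsAlgClosed.exists_root (X ^ 2 + C t * X - C f : k[X]) hdeg
  have hr' : r ^ 2 + t * r - f = 0 := by simpa using hr
  have hy : y ^ 2 + algebraMap k F t * y - algebraMap k F f = 0 := by
    have := (Affine.equation_iff _ _).mp h
    simp only [WeierstrassCurve.baseChange, map_a₁, map_a₂, map_a₃, map_a₄, map_a₆] at this
    rw [ht, hf]
    simp only [map_add, map_mul, map_pow]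
    linear_combination this
  have hr'' : algebraMap k F r ^ 2 + algebraMap k F t * algebraMap k F r - algebraMap k F f = 0 := by
    rw [← map_pow, ← map_mul, ← map_add, ← map_sub, hr', map_zero]
  have hprod : (y - algebraMap k F r) * (y + algebraMap k F r + algebraMap k F t) = 0 := by
    linear_combination hy - hr''
  rcases mul_eq_zero.mp hprod with h1 | h1
  · exact ⟨r, sub_eq_zero.mp h1⟩
  · refine ⟨-r - t, ?_⟩
    rw [map_sub, map_neg]
    linear_combination h1

end Pt

end Fermat.Agent.EC.HWb
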