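import Mathlib
import Fermat.Agent.EC.HWb.PtHeight

/-!
# HW-b, part 6: the exact parallelogram law for an arbitrary presentation of the curve over `F`

Same statements as in `Law.lean` / `PtHeight.lean`, but the curve over the big field `F` is an
arbitrary `WF : Affine F` together with a proof `hWF : WF = (W.map C).map (algebraMap k[X] F)`.
This is the form needed when the curve comes from a smaller base field (e.g. `W0` over a finite
field `𝔽`, `W = W0⁄k`, `WF = W0⁄F`), where `WF` and `W⁄F` are only propositionally equal.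
-/

open Polynomial WeierstrassCurve
open Fermat.Agent.S13.AddSub

namespace Fermat.Agent.EC.HWb

variable {k : Type*} [Field k] (W : WeierstrassCurve k) [W.IsElliptic] {F : Type*} [Field F]
  [DecidableEq F] [Algebra k[X] F]

theorem sym2_law_gen (hinj : Function.Injective (algebraMap k[X] F)) (WF : Affine F)
    (hWF : WF = (W.map C).map (algebraMap k[X] F)) (Q R : WF.Point) {p p' pp pm : Fin 2 → k[X]}
    (hp : IsPrim p) (hp' : IsPrim p') (hpp : IsPrim pp) (hpm : IsPrim pm)
    (hQ : XRepBy Q p) (hR : XRepBy R p') (hadd : XRepBy (Q + R) pp) (hsub : XRepBy (Q - R) pm) :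
    ∃ c : k, c ≠ 0 ∧ sym2 pp pm = C c • asMap (W.map C) (sym2 p p') := by
  subst hWF
  let _ : Algebra k F := ((algebraMap k[X] F).comp C).toAlgebra
  have _ : IsScalarTower k k[X] F := IsScalarTower.of_algebraMap_eq fun _ => rfl
  exact sym2_law W hinj (F := F) Q R hp hp' hpp hpm hQ hR hadd hsub

theorem pairHeight_law_gen (hinj : Function.Injective (algebraMap k[X] F)) (WF : Affine F)
    (hWF : WF = (W.map C).map (algebraMap k[X] F)) (Q R : WF.Point) {p p' pp pm : Fin 2 → k[X]}
    (hp : IsPrim p) (hp' : IsPrim p') (hpp : IsPrim pp) (hpm : IsPrim pm)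
    (hQ : XRepBy Q p) (hR : XRepBy R p') (hadd : XRepBy (Q + R) pp) (hsub : XRepBy (Q - R) pm) :
    pairHeight pp + pairHeight pm = 2 * pairHeight p + 2 * pairHeight p' := by
  subst hWF
  let _ : Algebra k F := ((algebraMap k[X] F).comp C).toAlgebra
  have _ : IsScalarTower k k[X] F := IsScalarTower.of_algebraMap_eq fun _ => rfl
  exact pairHeight_law W hinj (F := F) Q R hp hp' hpp hpm hQ hR hadd hsub

theorem ptHeight_law_gen (hinj : Function.Injective (algebraMap k[X] F)) (WF : Affine F)
    (hWF : WF = (W.map C).map (algebraMap k[X] F)) (Q R : WF.Point)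
    (hQ : IsXRat (k := k) Q) (hR : IsXRat (k := k) R)
    (hadd : IsXRat (k := k) (Q + R)) (hsub : IsXRat (k := k) (Q - R)) :
    ptHeight (k := k) (Q + R) + ptHeight (k := k) (Q - R)
      = 2 * ptHeight (k := k) Q + 2 * ptHeight (k := k) R := by
  subst hWF
  let _ : Algebra k F := ((algebraMap k[X] F).comp C).toAlgebra
  have _ : IsScalarTower k k[X] F := IsScalarTower.of_algebraMap_eq fun _ => rfl
  exact ptHeight_law W hinj (F := F) Q R hQ hR hadd hsub

theorem ptHeight_sub_zsmul_gen (hinj : Function.Injective (algebraMap k[X] F)) (WF : Affine F)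
    (hWF : WF = (W.map C).map (algebraMap k[X] F)) (Q R : WF.Point) (hR : IsXRat (k := k) R)
    (hQ : ∀ n : ℤ, IsXRat (k := k) (Q - n • R)) (n : ℤ) :
    (ptHeight (k := k) (Q - n • R) : ℤ)
      = (ptHeight (k := k) R : ℤ) * n ^ 2
        + ((ptHeight (k := k) (Q - R) : ℤ) - ptHeight (k := k) Q - ptHeight (k := k) R) * n
        + ptHeight (k := k) Q := by
  subst hWF
  let _ : Algebra k F := ((algebraMap k[X] F).comp C).toAlgebra
  have _ : IsScalarTower k k[X] F := IsScalarTower.of_algebraMap_eq fun _ => rfl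
  exact ptHeight_sub_zsmul W hinj (F := F) Q R hR hQ n

end Fermat.Agent.EC.HWb
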